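import Mathlib
import Fermat.Agent.LT.T6.H189.ArchIntCut

/-!
# Row LT, tower T6, leaf T6.23.06 `CircleMeasC` (L4) -- helper79, registry 1468

OFF-MAIN.  `circleMeasC_79 : H189.CircleMeasC`, VERBATIM against `LT/T6/H189/ArchIntCut.lean`
(helper189@45580d1ec, sha256 `db591abe…`).

The image of `dθ` on `(0, 2π]` under `θ ↦ e^{iθ}` is `2π` times the Haar probability measure of the
circle: `θ ↦ e^{iθ}` is `AddCircle.toCircle ∘ mk` on `AddCircle (2π)`, `mk` maps `dθ` on `(0, 2π]` to
the volume of `AddCircle (2π)` (`AddCircle.measurePreserving_mk`), which is translation invariant;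
so the image measure is invariant and of total mass `2π`, and the Haar measure of a compact group
is unique up to a scalar (`Measure.isMulInvariant_eq_smul_of_compactSpace`).
-/

set_option autoImplicit false

open MeasureTheory
open scoped Matrix ENNReal

noncomputable section

namespace Fermat.Agent.LT.T6.H79

open Fermat.Agent.LT.T6.H189

/-- `θ ↦ e^{iθ}` factors through `AddCircle (2π)`. -/
theorem exp_eq_toCircle79 (θ : ℝ) :
    Circle.exp θ = AddCircle.toCircle (T := 2 * Real.pi) (θ : AddCircle (2 * Real.pi)) := by
  rw [AddCircle.toCircle_apply_mk, div_self (by positivity), one_mul]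

/-- **T6.23.06 `CircleMeasC`**, VERBATIM. -/
theorem circleMeasC_79 : CircleMeasC := by
  letI : MeasurableSpace Circle := borel Circle
  haveI : BorelSpace Circle := ⟨rfl⟩
  haveI : Fact (0 < 2 * Real.pi) := ⟨Real.two_pi_pos⟩
  refine ⟨ENNReal.ofReal (2 * Real.pi), ?_, ENNReal.ofReal_ne_top, ?_⟩
  · simp [Real.pi_pos]
  intro κ hκ hκ1
  haveI := hκ
  have hmk := AddCircle.measurePreserving_mk (2 * Real.pi) 0
  have hang : angM = volume.restrict (Set.Ioc 0 (0 + 2 * Real.pi)) := by
    rw [zero_add]; rfl
  have htc : Measurable (AddCircle.toCircle (T := 2 * Real.pi)) :=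
    AddCircle.continuous_toCircle.measurable
  -- the image measure is the image of the volume of `AddCircle (2π)`
  have hν : Measure.map (fun θ : ℝ => Circle.exp θ) angM
      = Measure.map (AddCircle.toCircle (T := 2 * Real.pi)) volume := by
    have e : (fun θ : ℝ => Circle.exp θ)
        = (AddCircle.toCircle (T := 2 * Real.pi)) ∘
            (fun θ : ℝ => (θ : AddCircle (2 * Real.pi))) := funext exp_eq_toCircle79
    rw [e, ← Measure.map_map htc hmk.measurable, hang, hmk.map_eq]
  rw [hν]
  set ν : Measure Circle := Measure.map (AddCircle.toCircle (T := 2 * Real.pi)) volume with hνdef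
  have huniv : ν Set.univ = ENNReal.ofReal (2 * Real.pi) := by
    rw [hνdef, Measure.map_apply htc MeasurableSet.univ, Set.preimage_univ, ← hmk.map_eq,
      Measure.map_apply hmk.measurable MeasurableSet.univ, Set.preimage_univ,
      Measure.restrict_apply MeasurableSet.univ, Set.univ_inter, Real.volume_Ioc]
    simp
  haveI : IsFiniteMeasure ν := ⟨by rw [huniv]; exact ENNReal.ofReal_lt_top⟩
  haveI : ν.IsMulLeftInvariant := by
    refine ⟨fun z => ?_⟩
    have hz : z = AddCircle.toCircle (T := 2 * Real.pi) ((Complex.arg z : ℝ) : AddCircle (2 * Real.pi)) := by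
      rw [← exp_eq_toCircle79, Circle.exp_arg]
    have e : (fun x : Circle => z * x) ∘ (AddCircle.toCircle (T := 2 * Real.pi))
        = (AddCircle.toCircle (T := 2 * Real.pi)) ∘
            (fun x : AddCircle (2 * Real.pi) => ((Complex.arg z : ℝ) : AddCircle (2 * Real.pi)) + x) := by
      funext x
      simp only [Function.comp_apply]
      rw [AddCircle.toCircle_add, ← hz]
    rw [hνdef, Measure.map_map (measurable_const_mul z) htc, e,
      ← Measure.map_map htc (measurable_const_add _), map_add_left_eq_self]
  have h := Measure.isMulInvariant_eq_smul_of_compactSpace ν κ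
  have hc : ((ν.haarScalarFactor κ : NNReal) : ℝ≥0∞) = ENNReal.ofReal (2 * Real.pi) := by
    have h' := congrArg (fun m : Measure Circle => m Set.univ) h
    simp only [Measure.smul_apply, hκ1] at h'
    rw [← huniv, h']
    simp [ENNReal.smul_def]
  calc ν = ν.haarScalarFactor κ • κ := h
    _ = ((ν.haarScalarFactor κ : NNReal) : ℝ≥0∞) • κ := by rw [ENNReal.smul_def]
    _ = ENNReal.ofReal (2 * Real.pi) • κ := by rw [hc]

end Fermat.Agent.LT.T6.H79

end
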